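/-
S29lib, block H2 (helper4): abstract linear disjointness.

`K`, `K'` are `L`-algebras with jointly injective `L`-linear coordinate families (`q`-expansion
coefficients), `Kan`, `K'an` are `C`-algebras with `C`-linear coordinates, `Φ : K → Kan` and
`Φ' : K' → K'an` are ring maps which on coordinates are the field embedding `e : L → C`.  Then a
family `y` in `K'` which is independent over `K` (through `ψ : K → K'`) has `Φ' ∘ y` independent
over the `C`-span of `Φ K` (through `ψan : Kan → K'an`, compatible with `ψ`).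
-/
import Mathlib

set_option autoImplicit false

namespace Fermat.Agent.S29lib.H2

open Function

section Abstract

variable {L C K K' Kan K'an ι : Type*} [Field L] [Field C] (e : L →+* C)
  [CommRing K] [Algebra L K] [CommRing K'] [Algebra L K']
  [CommRing Kan] [Algebra C Kan] [CommRing K'an] [Algebra C K'an]

/-- a vector of a vector space over `L` (through `e`) killed by all functionals is zero. -/
theorem eq_zero_of_forall_dual (w : C)
    (h : ∀ φ : (letI : Algebra L C := e.toAlgebra; C →ₗ[L] L), φ w = 0) : w = 0 := by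
  letI : Algebra L C := e.toAlgebra
  exact (Module.forall_dual_apply_eq_zero_iff L w).mp h

theorem linDisj_abstract
    (Φ : K →+* Kan) (Φ' : K' →+* K'an)
    (co : K →ₗ[L] (ℤ → L)) (co' : K' →ₗ[L] (ℤ → L))
    (coan : Kan →ₗ[C] (ℤ → C)) (co'an : K'an →ₗ[C] (ℤ → C))
    (hco' : Injective co') (hcoan : Injective coan)
    (hcoΦ : ∀ x n, coan (Φ x) n = e (co x n)) (hcoΦ' : ∀ x n, co'an (Φ' x) n = e (co' x n))
    (ψ : K →ₐ[L] K') (ψan : Kan →ₐ[C] K'an) (hψ : ∀ x, ψan (Φ x) = Φ' (ψ x))
    (y : ι → K')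
    (hy : ∀ (s : Finset ι) (k : ι → K), ∑ i ∈ s, ψ (k i) * y i = 0 → ∀ i ∈ s, k i = 0)
    (s : Finset ι) (c : ι → Kan)
    (hc : ∀ i ∈ s, c i ∈ Submodule.span C (Set.range Φ))
    (hrel : ∑ i ∈ s, ψan (c i) * Φ' (y i) = 0) : ∀ i ∈ s, c i = 0 := by
  classical
  letI : Algebra L C := e.toAlgebra
  have hsmul : ∀ (l : L) (w : C), l • w = e l * w := fun l w => Algebra.smul_def l w
  -- representations
  have hrep : ∀ i, ∃ μ : K →₀ C, i ∈ s → (μ.sum fun x a => a • Φ x) = c i := by
    intro i
    by_cases hi : i ∈ s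
    · obtain ⟨μ, hμ⟩ := (Finsupp.mem_span_range_iff_exists_finsupp).mp (hc i hi)
      exact ⟨μ, fun _ => hμ⟩
    · exact ⟨0, fun h => absurd h hi⟩
  choose μ hμ using hrep
  -- the `φ`-component of the coefficients
  have claim1 : ∀ φ : C →ₗ[L] L,
      ∑ i ∈ s, ψ ((μ i).sum fun x a => φ a • x) * y i = 0 := by
    intro φ
    apply hco'
    funext n
    rw [map_zero, Pi.zero_apply]
    have h0 := congrFun (congrArg co'an hrel) n
    rw [map_zero, Pi.zero_apply, map_sum, Finset.sum_apply] at h0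
    have h1 : ∀ i ∈ s, co'an (ψan (c i) * Φ' (y i)) n =
        ∑ x ∈ (μ i).support, (μ i x) * e (co' (ψ x * y i) n) := by
      intro i hi
      rw [← hμ i hi, Finsupp.sum, map_sum, Finset.sum_mul, map_sum, Finset.sum_apply]
      refine Finset.sum_congr rfl fun x _ => ?_
      rw [map_smul, smul_mul_assoc, map_smul, Pi.smul_apply, smul_eq_mul, hψ, ← map_mul, hcoΦ']
    rw [Finset.sum_congr rfl h1] at h0
    have h2 := congrArg φ h0
    rw [map_zero, map_sum] at h2
    rw [map_sum, Finset.sum_apply, ← h2]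
    refine Finset.sum_congr rfl fun i _ => ?_
    rw [Finsupp.sum, map_sum, Finset.sum_mul, map_sum, Finset.sum_apply, map_sum]
    refine Finset.sum_congr rfl fun x _ => ?_
    rw [map_smul, smul_mul_assoc, map_smul, Pi.smul_apply, smul_eq_mul, mul_comm (μ i x),
      ← hsmul, map_smul, smul_eq_mul, mul_comm]
  have claim2 : ∀ (φ : C →ₗ[L] L), ∀ i ∈ s, ((μ i).sum fun x a => φ a • x) = 0 :=
    fun φ => hy s _ (claim1 φ)
  intro i hi
  apply hcoan
  funext n
  rw [map_zero, Pi.zero_apply]
  apply eq_zero_of_forall_dual e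
  intro φ
  have h3 := congrFun (congrArg co (claim2 φ i hi)) n
  rw [map_zero, Pi.zero_apply, Finsupp.sum, map_sum, Finset.sum_apply] at h3
  rw [← hμ i hi, Finsupp.sum, map_sum, Finset.sum_apply, map_sum, ← h3]
  refine Finset.sum_congr rfl fun x _ => ?_
  rw [map_smul, Pi.smul_apply, smul_eq_mul, hcoΦ, mul_comm, ← hsmul, map_smul, smul_eq_mul,
    map_smul, Pi.smul_apply, smul_eq_mul, mul_comm]

end Abstract

end Fermat.Agent.S29lib.H2
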