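/-
S29lib, block H2 (helper4): linear disjointness of the formal function fields `FBar L M` over
`FBar L N` against the analytic function fields.

For `ψ : FBar L N →ₐ[L] FBar L M` and `ψan : Fan N →+* Fan M` (fixing the constants `ℂ`) with
`ψan ∘ ΦBar N e = ΦBar M e ∘ ψ`: a family `y` in `FBar L M` which is linearly independent over
`FBar L N` (through `ψ`) has `ΦBar M e ∘ y` linearly independent over `Fan N` (through `ψan`).
Hence `[FBar L M : FBar L N]_ψ ≤ [Fan M : Fan N]_ψan`.
-/
import Mathlib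
import Fermat.Agent.ProgramR.BarField.DegreeUB
import Fermat.Agent.ProgramR.BarField.Degree
import Fermat.Agent.ProgramR.BarField.LinDisjoint
import Fermat.Agent.S29lib.H2.LinDisjAbs

set_option autoImplicit false
set_option linter.unusedSectionVars false
set_option linter.style.haveILetI false

noncomputable section

open Complex Filter Function Topology CongruenceSubgroup Polynomial Module
open UpperHalfPlane hiding I
open scoped Real Manifold MatrixGroups

namespace Fermat.Agent.S29lib.H2

open ModularCurve Fermat.Agent.ProgramR Fermat.Agent.ProgramR.QExp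
  Fermat.Agent.ProgramR.LevelOne Fermat.Agent.ProgramR.RR Fermat.Agent.ProgramR.BarField

attribute [local instance] FractionRing.liftAlgebra
attribute [local instance] Genus.cosetFintype

variable {L : Type*} [Field L] [Algebra ℚ L] (e : L →+* ℂ) (N : ℕ) [NeZero N]

/-! ### Coordinates: `q`-expansion coefficients -/

/-- the `q`-expansion coefficients on the formal function field. -/
def coBar : FBar L N →ₗ[L] (ℤ → L) where
  toFun x n := ((x : FBar L N) : LaurentSeries L).coeff n
  map_add' x y := by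
    funext n
    show ((x + y : FBar L N) : LaurentSeries L).coeff n = _
    rfl
  map_smul' a x := by
    funext n
    show ((a • x : FBar L N) : LaurentSeries L).coeff n = a • (x : LaurentSeries L).coeff n
    have h : ((a • x : FBar L N) : LaurentSeries L) = a • (x : LaurentSeries L) := by
      rw [← algSmul_eq]
      rfl
    rw [h, HahnSeries.coeff_smul]

lemma coBar_apply (x : FBar L N) (n : ℤ) :
    coBar N x n = ((x : FBar L N) : LaurentSeries L).coeff n := rfl

lemma coBar_injective : Injective (coBar (L := L) N) := by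
  intro x y h
  apply Subtype.ext
  ext n
  exact congrFun h n

/-- the `q`-expansion coefficients on the analytic function field. -/
def coAn : WH0.FunField (Gamma0 N) →ₗ[ℂ] (ℤ → ℂ) where
  toFun w n := (qExpFF N w).coeff n
  map_add' x y := by
    funext n
    show (qExpFF N (x + y)).coeff n = _
    rw [map_add]
    rfl
  map_smul' a x := by
    funext n
    show (qExpFF N (a • x)).coeff n = a • (qExpFF N x).coeff n
    rw [Algebra.smul_def, map_mul,
      IsScalarTower.algebraMap_apply ℂ (WH0 (Gamma0 N)) (WH0.FunField (Gamma0 N)),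
      qExpFF_const, HahnSeries.C_mul_eq_smul, HahnSeries.coeff_smul]

lemma coAn_apply (w : WH0.FunField (Gamma0 N)) (n : ℤ) : coAn N w n = (qExpFF N w).coeff n := rfl

lemma coAn_injective : Injective (coAn N) := by
  intro x y h
  apply qExpFF_injective N
  ext n
  exact congrFun h n

lemma coAn_ΦBar (x : FBar L N) (n : ℤ) : coAn N (ΦBar N e x) n = e (coBar N x n) := by
  rw [coAn_apply, ΦBar, qExpFF_toFunField]
  rfl

/-! ### The `ℂ`-algebra generated by the image of `ΦBar` -/

/-- the `ℂ`-subalgebra of the analytic function field generated by the image of `ΦBar`. -/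
def algΦ : Subalgebra ℂ (WH0.FunField (Gamma0 N)) := Algebra.adjoin ℂ (Set.range (ΦBar N e))

lemma ΦBar_mem_algΦ (x : FBar L N) : ΦBar N e x ∈ algΦ e N :=
  Algebra.subset_adjoin ⟨x, rfl⟩

lemma algΦ_toSubmodule :
    Subalgebra.toSubmodule (algΦ e N) = Submodule.span ℂ (Set.range (ΦBar N e)) := by
  rw [algΦ, Algebra.adjoin_eq_span]
  congr 1
  have h : Set.range (ΦBar N e) =
      ((MonoidHom.mrange ((ΦBar N e : FBar L N →+* WH0.FunField (Gamma0 N)) :
        FBar L N →* WH0.FunField (Gamma0 N)) : Submonoid (WH0.FunField (Gamma0 N))) :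
        Set (WH0.FunField (Gamma0 N))) := by
    ext w
    simp
  rw [h, Submonoid.closure_eq]

lemma mem_span_of_mem_algΦ {w : WH0.FunField (Gamma0 N)} (hw : w ∈ algΦ e N) :
    w ∈ Submodule.span ℂ (Set.range (ΦBar N e)) := by
  rw [← algΦ_toSubmodule]
  exact hw

/-- polynomials in `j` lie in `algΦ`. -/
lemma algebraMap_poly_mem_algΦ (p : ℂ[X]) :
    algebraMap ℂ[X] (WH0.FunField (Gamma0 N)) p ∈ algΦ e N := by
  rw [IsScalarTower.algebraMap_apply ℂ[X] (WH0 (Gamma0 N)) (WH0.FunField (Gamma0 N)),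
    WH0.algebraMap_poly, ← Polynomial.aeval_algebraMap_apply, ← ΦBar_jBar N e]
  have hsub : ({ΦBar N e (jBar L N)} : Set (WH0.FunField (Gamma0 N))) ⊆ Set.range (ΦBar N e) :=
    Set.singleton_subset_iff.mpr ⟨jBar L N, rfl⟩
  exact Algebra.adjoin_mono hsub (Polynomial.aeval_mem_adjoin_singleton ℂ _)

lemma algebraMap_poly_injective :
    Injective (algebraMap ℂ[X] (WH0.FunField (Gamma0 N))) := by
  rw [IsScalarTower.algebraMap_eq ℂ[X] RatC (WH0.FunField (Gamma0 N))]
  exact (algebraMap RatC (WH0.FunField (Gamma0 N))).injective.comp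
    (IsFractionRing.injective ℂ[X] RatC)

/-- **Generation**: every element of the analytic function field is a quotient of an element of
`algΦ` by a nonzero polynomial in `j`. -/
theorem exists_poly_mul_mem_algΦ (c : WH0.FunField (Gamma0 N)) :
    ∃ q : ℂ[X], q ≠ 0 ∧ algebraMap ℂ[X] (WH0.FunField (Gamma0 N)) q * c ∈ algΦ e N := by
  classical
  haveI := finiteDimensional_ratFunc_of_emb N e
  let b := Module.finBasis (RatFunc L) (FBar L N)
  have h1 : LinearIndependent L[X] (fun i => b i) :=
    (LinearIndependent.iff_fractionRing L[X] (RatFunc L)).2 b.linearIndependent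
  have h2 := linearIndependent_poly_ΦBar N e _ h1
  have h3 : LinearIndependent RatC (fun i => ΦBar N e (b i)) :=
    (LinearIndependent.iff_fractionRing ℂ[X] RatC).1 h2
  have hcard : Fintype.card (Fin (finrank (RatFunc L) (FBar L N))) =
      finrank RatC (WH0.FunField (Gamma0 N)) := by
    apply le_antisymm h3.fintype_card_le_finrank
    rw [Fintype.card_fin, finrank_ratFunc_of_emb N e, ← Genus.card_coset N]
    exact WH0.finrank_funField_le (Gamma0 N)
  have hspan := h3.span_eq_top_of_card_eq_finrank' hcard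
  have hc : c ∈ Submodule.span RatC (Set.range fun i => ΦBar N e (b i)) := by
    rw [hspan]; trivial
  obtain ⟨r, hr⟩ := (Submodule.mem_span_range_iff_exists_fun RatC).mp hc
  obtain ⟨q, hq⟩ := IsLocalization.exist_integer_multiples (nonZeroDivisors ℂ[X]) Finset.univ r
  refine ⟨q, nonZeroDivisors.coe_ne_zero q, ?_⟩
  rw [← hr, Finset.mul_sum]
  refine Subalgebra.sum_mem _ fun i _ => ?_
  obtain ⟨p, hp⟩ := hq i (Finset.mem_univ i)
  have h4 : algebraMap ℂ[X] (WH0.FunField (Gamma0 N)) q * r i • ΦBar N e (b i) =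
      algebraMap ℂ[X] (WH0.FunField (Gamma0 N)) p * ΦBar N e (b i) := by
    rw [Algebra.smul_def, ← mul_assoc,
      IsScalarTower.algebraMap_apply ℂ[X] RatC (WH0.FunField (Gamma0 N)),
      IsScalarTower.algebraMap_apply ℂ[X] RatC (WH0.FunField (Gamma0 N)), ← map_mul, hp,
      Algebra.smul_def]
  rw [h4]
  exact Subalgebra.mul_mem _ (algebraMap_poly_mem_algΦ e N p) (ΦBar_mem_algΦ e N _)

/-- simultaneous version for a finite family. -/
theorem exists_poly_mul_mem_algΦ_finset {ι : Type*} (s : Finset ι)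
    (c : ι → WH0.FunField (Gamma0 N)) :
    ∃ q : ℂ[X], q ≠ 0 ∧ ∀ i ∈ s, algebraMap ℂ[X] (WH0.FunField (Gamma0 N)) q * c i ∈ algΦ e N := by
  classical
  choose q hq0 hq using fun i => exists_poly_mul_mem_algΦ e N (c i)
  refine ⟨∏ j ∈ s, q j, Finset.prod_ne_zero_iff.mpr fun j _ => hq0 j, fun i hi => ?_⟩
  rw [← Finset.mul_prod_erase s q hi, map_mul, mul_right_comm]
  exact Subalgebra.mul_mem _ (hq i) (algebraMap_poly_mem_algΦ e N _)

/-! ### Linear disjointness -/

variable (M : ℕ) [NeZero M]

/-- **Linear disjointness** (explicit form). -/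
theorem linDisj (ψ : FBar L N →ₐ[L] FBar L M)
    (ψan : WH0.FunField (Gamma0 N) →+* WH0.FunField (Gamma0 M))
    (hψ : ∀ x, ψan (ΦBar N e x) = ΦBar M e (ψ x))
    (hψC : ∀ c : ℂ, ψan (algebraMap ℂ _ c) = algebraMap ℂ _ c)
    {ι : Type*} (y : ι → FBar L M)
    (hy : ∀ (s : Finset ι) (k : ι → FBar L N), ∑ i ∈ s, ψ (k i) * y i = 0 → ∀ i ∈ s, k i = 0)
    (s : Finset ι) (c : ι → WH0.FunField (Gamma0 N))
    (hrel : ∑ i ∈ s, ψan (c i) * ΦBar M e (y i) = 0) : ∀ i ∈ s, c i = 0 := by
  classical
  obtain ⟨q, hq0, hq⟩ := exists_poly_mul_mem_algΦ_finset e N s c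
  let ψanA : WH0.FunField (Gamma0 N) →ₐ[ℂ] WH0.FunField (Gamma0 M) :=
    { ψan with commutes' := hψC }
  have hrel' : ∑ i ∈ s, ψanA (algebraMap ℂ[X] (WH0.FunField (Gamma0 N)) q * c i) *
      ΦBar M e (y i) = 0 := by
    have : ∀ i ∈ s, ψanA (algebraMap ℂ[X] (WH0.FunField (Gamma0 N)) q * c i) * ΦBar M e (y i) =
        ψan (algebraMap ℂ[X] (WH0.FunField (Gamma0 N)) q) * (ψan (c i) * ΦBar M e (y i)) := by
      intro i _
      show ψan (_ * _) * _ = _
      rw [map_mul, mul_assoc]
    rw [Finset.sum_congr rfl this, ← Finset.mul_sum, hrel, mul_zero]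
  have key := linDisj_abstract e (ΦBar N e) (ΦBar M e) (coBar N) (coBar M) (coAn N) (coAn M)
    (coBar_injective M) (coAn_injective N) (coAn_ΦBar e N) (coAn_ΦBar e M) ψ ψanA hψ y hy s
    (fun i => algebraMap ℂ[X] (WH0.FunField (Gamma0 N)) q * c i)
    (fun i hi => mem_span_of_mem_algΦ e N (hq i hi)) hrel'
  intro i hi
  have h1 := key i hi
  have h2 : algebraMap ℂ[X] (WH0.FunField (Gamma0 N)) q ≠ 0 := fun h =>
    hq0 (algebraMap_poly_injective N (h.trans (map_zero _).symm))
  exact (mul_eq_zero.mp h1).resolve_left h2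

/-- **Linear disjointness** (`LinearIndependent` form; module structures through `ψ`, `ψan`,
i.e. the prelude's `algebraAlong`). -/
theorem linearIndependent_ΦBar (ψ : FBar L N →ₐ[L] FBar L M)
    (ψan : WH0.FunField (Gamma0 N) →+* WH0.FunField (Gamma0 M))
    (hψ : ∀ x, ψan (ΦBar N e x) = ΦBar M e (ψ x))
    (hψC : ∀ c : ℂ, ψan (algebraMap ℂ _ c) = algebraMap ℂ _ c)
    {ι : Type*} (y : ι → FBar L M)
    (hy : @LinearIndependent ι (FBar L N) (FBar L M) y _ _ ψ.toRingHom.toAlgebra.toModule) :
    @LinearIndependent ι (WH0.FunField (Gamma0 N)) (WH0.FunField (Gamma0 M))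
      (fun i => ΦBar M e (y i)) _ _ ψan.toAlgebra.toModule := by
  letI a1 : Algebra (FBar L N) (FBar L M) := ψ.toRingHom.toAlgebra
  letI a2 : Algebra (WH0.FunField (Gamma0 N)) (WH0.FunField (Gamma0 M)) := ψan.toAlgebra
  rw [linearIndependent_iff'] at hy ⊢
  intro s c hrel
  refine linDisj e N M ψ ψan hψ hψC y (fun s k hk => hy s k ?_) s c ?_
  · rw [← hk]
    exact Finset.sum_congr rfl fun i _ => Algebra.smul_def _ _
  · rw [← hrel]
    exact Finset.sum_congr rfl fun i _ => (Algebra.smul_def _ _).symm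

/-- **Degree inequality**: `[FBar L M : FBar L N]_ψ ≤ [Fan M : Fan N]_ψan`. -/
theorem finrank_le_finrank (ψ : FBar L N →ₐ[L] FBar L M)
    (ψan : WH0.FunField (Gamma0 N) →+* WH0.FunField (Gamma0 M))
    (hψ : ∀ x, ψan (ΦBar N e x) = ΦBar M e (ψ x))
    (hψC : ∀ c : ℂ, ψan (algebraMap ℂ _ c) = algebraMap ℂ _ c)
    (hfin : @Module.Finite (WH0.FunField (Gamma0 N)) (WH0.FunField (Gamma0 M)) _ _
      ψan.toAlgebra.toModule) :
    @Module.Finite (FBar L N) (FBar L M) _ _ ψ.toRingHom.toAlgebra.toModule ∧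
      @finrank (FBar L N) (FBar L M) _ _ ψ.toRingHom.toAlgebra.toModule ≤
        @finrank (WH0.FunField (Gamma0 N)) (WH0.FunField (Gamma0 M)) _ _
          ψan.toAlgebra.toModule := by
  classical
  letI a1 : Algebra (FBar L N) (FBar L M) := ψ.toRingHom.toAlgebra
  letI a2 : Algebra (WH0.FunField (Gamma0 N)) (WH0.FunField (Gamma0 M)) := ψan.toAlgebra
  haveI : Module.Finite (WH0.FunField (Gamma0 N)) (WH0.FunField (Gamma0 M)) := hfin
  have hrank : Module.rank (FBar L N) (FBar L M) ≤
      (finrank (WH0.FunField (Gamma0 N)) (WH0.FunField (Gamma0 M)) : Cardinal) := by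
    apply rank_le
    intro s hs
    have h2 := linearIndependent_ΦBar e N M ψ ψan hψ hψC _ hs
    have h4 := h2.fintype_card_le_finrank
    rwa [Fintype.card_coe] at h4
  have hfd : Module.Finite (FBar L N) (FBar L M) :=
    Module.rank_lt_aleph0_iff.1 (hrank.trans_lt Cardinal.natCast_lt_aleph0)
  exact ⟨hfd, Module.finrank_le_of_rank_le hrank⟩

end Fermat.Agent.S29lib.H2
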